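import Mathlib
import Fermat.Prelude.Def_FLTPrelim_FreyPackage

/-!
# T-Kum interface (lead): Kummer's proof of FLT for primes `p` with `𝓞 ℚ(ζ_p)` a PID

Shared definitions so that the pieces K1..K5 can be built in parallel; everything here is
proved (no placeholders).  All statements are about `K = CyclotomicField p ℚ`.

* K1 proves `IsPrincipalIdealRing (𝓞 (CyclotomicField p ℚ))` for `p = 7, 11, 13` (Mathlib: 3, 5).
* K2 proves `KummerLemmaHolds p` for `p = 5, 7, 11, 13`.
* K3 proves `KummerData p → 5 ≤ p → CaseIHolds p`   (only `pid` is needed).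
* K4 proves `KummerData p → 5 ≤ p → CaseIIHolds p`.
* K5 (below): `CaseIHolds p → CaseIIHolds p → FermatLastTheoremFor p`, and
  `FermatLastTheoremFor P.p → False` for a Frey package `P`.
-/

namespace Fermat.Agent.Kummer

open NumberField

/-- Kummer's lemma for the prime `p`: a unit of `𝓞 K` (K = ℚ(ζ_p)) that is congruent to a
rational integer modulo `p` is a `p`-th power of a unit. -/
def KummerLemmaHolds (p : ℕ) : Prop :=
  ∀ u : (𝓞 (CyclotomicField p ℚ))ˣ,
    (∃ n : ℤ, (p : 𝓞 (CyclotomicField p ℚ)) ∣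
        (u : 𝓞 (CyclotomicField p ℚ)) - (n : 𝓞 (CyclotomicField p ℚ))) →
      ∃ v : (𝓞 (CyclotomicField p ℚ))ˣ, u = v ^ p

/-- The arithmetic input of Kummer's proof in the class-number-one case. -/
structure KummerData (p : ℕ) : Prop where
  pid : IsPrincipalIdealRing (𝓞 (CyclotomicField p ℚ))
  kummer : KummerLemmaHolds p

/-- Target of K3 (case I): no primitive solution with `p ∤ abc`. -/
def CaseIHolds (p : ℕ) : Prop :=
  ∀ a b c : ℤ, ({a, b, c} : Finset ℤ).gcd id = 1 → ¬ (p : ℤ) ∣ a * b * c →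
    a ^ p + b ^ p ≠ c ^ p

/-- Target of K4 (case II): no primitive solution with `abc ≠ 0`, `p ∣ abc`. -/
def CaseIIHolds (p : ℕ) : Prop :=
  ∀ a b c : ℤ, a ≠ 0 → b ≠ 0 → c ≠ 0 → ({a, b, c} : Finset ℤ).gcd id = 1 →
    (p : ℤ) ∣ a * b * c → a ^ p + b ^ p ≠ c ^ p

/-- Glue: the two cases give Fermat's Last Theorem for exponent `p` over `ℤ`. -/
theorem flt_int_of_cases {p : ℕ} (h1 : CaseIHolds p) (h2 : CaseIIHolds p) :
    FermatLastTheoremWith ℤ p := by
  refine fermatLastTheoremWith_of_fermatLastTheoremWith_coprime fun a b c ha hb hc hgcd => ?_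
  by_cases h : (p : ℤ) ∣ a * b * c
  · exact h2 a b c ha hb hc hgcd h
  · exact h1 a b c hgcd h

/-- Glue: the two cases give `FermatLastTheoremFor p`. -/
theorem flt_of_cases {p : ℕ} (h1 : CaseIHolds p) (h2 : CaseIIHolds p) :
    FermatLastTheoremFor p :=
  fermatLastTheoremFor_iff_int.mpr (flt_int_of_cases h1 h2)

/-- A Frey package whose exponent satisfies Fermat's Last Theorem does not exist. -/
theorem freyPackage_false_of_flt (P : FreyPackage) (h : FermatLastTheoremFor P.p) : False :=
  fermatLastTheoremFor_iff_int.mp h P.a P.b P.c P.ha0 P.hb0 P.hc0 P.hFLT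

end Fermat.Agent.Kummer
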