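import Mathlib

/-!
# T-Kum K1: common tools for the PID proofs (`p = 7, 11, 13`)

* `h25p_absNorm_span`: the absolute norm of `span {α}`, `α = F ζ`, from the *element identity*
  `∏_{k=1}^{p-1} F (ζ^k) = N` (no determinants, no enumeration of the Galois group).
* `h25p_mem_primesOver`: a principal ideal of absolute norm `q ^ f`, `f = orderOf (q : ZMod p)`,
  is a prime above `q`.
* `h25p_exists_of_orderOf`: primes `q ≠ p` with `B < q ^ f` need no further work.
-/

set_option autoImplicit false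

namespace Fermat.Agent.Kummer

open NumberField Ideal

variable (p : ℕ) [hp : Fact p.Prime] [NeZero p]
  (K : Type*) [Field K] [NumberField K] [IsCyclotomicExtension {p} ℚ K]

/-- The norm of `F (ζ ^ k)` does not depend on `k` prime to `p`, for `F` commuting with the
Galois action. -/
theorem h25p_norm_conj (F : K → K)
    (hF : ∀ (σ : K ≃ₐ[ℚ] K) (z : K),
      σ (F z) = F (σ z)) (k : ℕ) (hk : k.Coprime p) :
    Algebra.norm ℚ (F (IsCyclotomicExtension.zeta p ℚ (K) ^ k)) =
      Algebra.norm ℚ (F (IsCyclotomicExtension.zeta p ℚ (K))) := by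
  have hζ := IsCyclotomicExtension.zeta_spec p ℚ (K)
  have hμ := hζ.pow_of_coprime k hk
  have hirr : Irreducible (Polynomial.cyclotomic p ℚ) :=
    Polynomial.cyclotomic.irreducible_rat hp.out.pos
  have h1 := IsCyclotomicExtension.fromZetaAut_spec hμ hirr
  rw [← h1, ← hF, Algebra.norm_eq_of_algEquiv]

/-- From the element identity `∏_{k=1}^{p-1} F (ζ^k) = N` to the norm of `F ζ`. -/
theorem h25p_norm_pow (F : K → K)
    (hF : ∀ (σ : K ≃ₐ[ℚ] K) (z : K),
      σ (F z) = F (σ z)) (N : ℤ)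
    (hprod : ∏ k ∈ Finset.Icc 1 (p - 1),
      F (IsCyclotomicExtension.zeta p ℚ (K) ^ k) = (N : K)) :
    Algebra.norm ℚ (F (IsCyclotomicExtension.zeta p ℚ (K))) ^ (p - 1) =
      (N : ℚ) ^ (p - 1) := by
  have hirr : Irreducible (Polynomial.cyclotomic p ℚ) :=
    Polynomial.cyclotomic.irreducible_rat hp.out.pos
  have hfin : Module.finrank ℚ (K) = p - 1 := by
    rw [IsCyclotomicExtension.finrank (n := p) (K) hirr,
      Nat.totient_prime hp.out]
  have h1 := congrArg (Algebra.norm ℚ) hprod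
  rw [map_prod] at h1
  have h2 : ∀ k ∈ Finset.Icc 1 (p - 1),
      Algebra.norm ℚ (F (IsCyclotomicExtension.zeta p ℚ (K) ^ k)) =
        Algebra.norm ℚ (F (IsCyclotomicExtension.zeta p ℚ (K))) := by
    intro k hk
    rw [Finset.mem_Icc] at hk
    apply h25p_norm_conj p K F hF k
    apply Nat.Coprime.symm
    rw [Nat.Prime.coprime_iff_not_dvd hp.out]
    intro hd
    have := Nat.le_of_dvd (by omega) hd
    have := hp.out.pos
    omega
  rw [Finset.prod_congr rfl h2, Finset.prod_const, Nat.card_Icc] at h1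
  rw [show p - 1 + 1 - 1 = p - 1 by omega] at h1
  rw [h1]
  have h3 : (N : K) = algebraMap ℚ (K) (N : ℚ) := by
    simp
  rw [h3, Algebra.norm_algebraMap, hfin]

/-- The absolute norm of `span {α}` from the element identity `∏_{k=1}^{p-1} F (ζ^k) = N`. -/
theorem h25p_absNorm_span (F : K → K)
    (hF : ∀ (σ : K ≃ₐ[ℚ] K) (z : K),
      σ (F z) = F (σ z)) (N : ℤ)
    (hprod : ∏ k ∈ Finset.Icc 1 (p - 1),
      F (IsCyclotomicExtension.zeta p ℚ (K) ^ k) = (N : K))
    (α : 𝓞 (K))
    (hα : (α : K) = F (IsCyclotomicExtension.zeta p ℚ (K))) :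
    absNorm (span {α}) = N.natAbs := by
  rw [absNorm_span_singleton]
  have h1 := h25p_norm_pow p K F hF N hprod
  rw [← hα, ← Algebra.coe_norm_int] at h1
  have h2 : (Algebra.norm ℤ α) ^ (p - 1) = N ^ (p - 1) := by exact_mod_cast h1
  have h3 := congrArg Int.natAbs h2
  rw [Int.natAbs_pow, Int.natAbs_pow] at h3
  have hp1 : p - 1 ≠ 0 := by
    have := hp.out.two_le
    omega
  exact Nat.pow_left_injective hp1 h3

/-- A principal ideal of absolute norm `q ^ f`, `f` the order of `q` mod `p`, is a prime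
above `q`. -/
theorem h25p_mem_primesOver (q : ℕ) [hq : Fact q.Prime] (hqp : q ≠ p)
    (α : 𝓞 (K))
    (h : absNorm (span {α}) = q ^ orderOf (q : ZMod p)) :
    span {α} ∈ primesOver (span {(q : ℤ)}) (𝓞 (K)) := by
  have hfpos : 0 < orderOf (q : ZMod p) := by
    apply orderOf_pos_iff.mpr
    apply isOfFinOrder_iff_pow_eq_one.mpr
    have hcop : q.Coprime p := (Nat.coprime_primes hq.out hp.out).mpr hqp
    refine ⟨p - 1, by have := hp.out.two_le; omega, ?_⟩
    have := ZMod.pow_totient (ZMod.unitOfCoprime q hcop)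
    rw [Nat.totient_prime hp.out] at this
    have h2 := congrArg (fun u : (ZMod p)ˣ => (u : ZMod p)) this
    simpa using h2
  have hne : span {α} ≠ ⊤ := by
    intro htop
    rw [htop, absNorm_top] at h
    have := Nat.one_lt_pow hfpos.ne' hq.out.one_lt
    omega
  obtain ⟨P, hPmax, hle⟩ := exists_le_maximal _ hne
  have hPprime : P.IsPrime := hPmax.isPrime
  have hqP : ((q : ℤ) : 𝓞 (K)) ∈ P := by
    have h1 : ((absNorm (span {α}) : ℕ) : 𝓞 (K)) ∈ span {α} := absNorm_mem _
    rw [h] at h1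
    have h2 := hle h1
    push_cast at h2 ⊢
    exact hPprime.mem_of_pow_mem _ h2
  have hqprime : (span {(q : ℤ)}).IsMaximal := by
    have : Prime (q : ℤ) := Nat.prime_iff_prime_int.mp hq.out
    exact ((span_singleton_prime this.ne_zero).mpr this).isMaximal (by simpa using this.ne_zero)
  have hlies : P.LiesOver (span {(q : ℤ)}) := by
    constructor
    have h1 : span {(q : ℤ)} ≤ P.under ℤ := by
      rw [span_singleton_le_iff_mem]
      exact hqP
    have h2 : P.under ℤ ≠ ⊤ := by
      have : (P.under ℤ).IsPrime := hPprime.under ℤ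
      exact this.ne_top
    exact (hqprime.eq_of_le h2 h1)
  have hPnorm : absNorm P = q ^ orderOf (q : ZMod p) := by
    have h1 := natAbs_pow_inertiaDeg (q : ℤ) P
    rw [Int.natAbs_natCast] at h1
    rw [← h1, IsCyclotomicExtension.Rat.inertiaDeg_eq_of_not_dvd q K P
      (m := p) (fun hd => hqp ((Nat.prime_dvd_prime_iff_eq hq.out hp.out).mp hd))]
  -- `span {α} = P`
  obtain ⟨J, hJ⟩ := Ideal.dvd_iff_le.mpr hle
  have h3 := congrArg absNorm hJ
  rw [map_mul, h, hPnorm] at h3
  have hJ1 : absNorm J = 1 := by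
    have hpos : 0 < q ^ orderOf (q : ZMod p) := pow_pos hq.out.pos _
    have : q ^ orderOf (q : ZMod p) * 1 = q ^ orderOf (q : ZMod p) * absNorm J := by
      rw [mul_one]; exact h3
    exact (Nat.eq_of_mul_eq_mul_left hpos this).symm
  rw [absNorm_eq_one_iff] at hJ1
  rw [hJ1, mul_top] at hJ
  rw [hJ]
  exact ⟨hPprime, hlies⟩

/-- A prime `q ≠ p` whose powers below the order of `q` mod `p` are nontrivial and with
`B < q ^ f`: every prime above `q` has `B < q ^ inertiaDeg`. -/
theorem h25p_exists_of_orderOf (q : ℕ) [hq : Fact q.Prime] (hqp : q ≠ p) (B f : ℕ)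
    (hB : B < q ^ f) (hf : ∀ k, 0 < k → k < f → (q : ZMod p) ^ k ≠ 1) :
    ∃ P ∈ primesOver (span {(q : ℤ)}) (𝓞 (K)), B < q ^ P.inertiaDeg ℤ := by
  have hqprime : (span {(q : ℤ)}).IsPrime := by
    have : Prime (q : ℤ) := Nat.prime_iff_prime_int.mp hq.out
    exact (span_singleton_prime this.ne_zero).mpr this
  obtain ⟨⟨P, hP1, hP2⟩⟩ := (span {(q : ℤ)}).nonempty_primesOver (S := 𝓞 (K))
  refine ⟨P, ⟨hP1, hP2⟩, ?_⟩
  rw [IsCyclotomicExtension.Rat.inertiaDeg_eq_of_not_dvd q K P
      (m := p) (fun hd => hqp ((Nat.prime_dvd_prime_iff_eq hq.out hp.out).mp hd))]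
  have hcop : q.Coprime p := (Nat.coprime_primes hq.out hp.out).mpr hqp
  have hfin : IsOfFinOrder (q : ZMod p) := by
    apply isOfFinOrder_iff_pow_eq_one.mpr
    refine ⟨p - 1, by have := hp.out.two_le; omega, ?_⟩
    have := ZMod.pow_totient (ZMod.unitOfCoprime q hcop)
    rw [Nat.totient_prime hp.out] at this
    have h2 := congrArg (fun u : (ZMod p)ˣ => (u : ZMod p)) this
    simpa using h2
  have hpos : 0 < orderOf (q : ZMod p) := orderOf_pos_iff.mpr hfin
  have hle : f ≤ orderOf (q : ZMod p) := by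
    by_contra hlt
    push Not at hlt
    exact hf _ hpos hlt (pow_orderOf_eq_one _)
  exact lt_of_lt_of_le hB (Nat.pow_le_pow_right hq.out.pos hle)

end Fermat.Agent.Kummer
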