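import Mathlib

/-!
# T-Kum K1 (helper2): shared lemmas for `IsPrincipalIdealRing (𝓞 (CyclotomicField p ℚ))`

* `h2_cyc p` : the `IsCyclotomicExtension {p} ℚ (CyclotomicField p ℚ)` instance, as a theorem.
* `h2_absNorm_span_of_prod_conj` : if a product of `finrank` conjugates of `α` is the natural
  number `N`, then `absNorm (span {α}) = N`  (no determinants needed).
* `h2_exists_principal_of_absNorm` : if `absNorm (span {α}) = q ^ orderOf (q : ZMod p)`, `q ≠ p`
  prime, then `span {α}` is a (principal) prime over `q`.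
* `h2_exists_principal_over_self` : the prime over `p` is principal.
-/

set_option linter.style.haveILetI false
set_option linter.unnecessarySimpa false

namespace Fermat.Agent.Kummer

open NumberField Polynomial Ideal

/-- The cyclotomic-extension instance (instance search does not find it by itself). -/
theorem h2_cyc (p : ℕ) [NeZero p] : IsCyclotomicExtension {p} ℚ (CyclotomicField p ℚ) :=
  CyclotomicField.isCyclotomicExtension p ℚ

section norm

variable {K : Type*} [Field K] [NumberField K]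

/-- If the product of `finrank ℚ K` conjugates of `α` is the natural number `N`, the ideal
`(α)` has absolute norm `N`. -/
theorem h2_absNorm_span_of_prod_conj {ι : Type*} (s : Finset ι) (σ : ι → K ≃ₐ[ℚ] K)
    (hs : s.card = Module.finrank ℚ K) (α : 𝓞 K) (N : ℕ)
    (h : ∏ i ∈ s, σ i (α : K) = (N : K)) : absNorm (span {α}) = N := by
  have hpos : 0 < Module.finrank ℚ K := Module.finrank_pos
  have h1 : Algebra.norm ℚ (∏ i ∈ s, σ i (α : K)) = (Algebra.norm ℚ (α : K)) ^ s.card := by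
    rw [map_prod, Finset.prod_congr rfl fun i _ => Algebra.norm_eq_of_algEquiv (σ i) (α : K),
      Finset.prod_const]
  have h2 : Algebra.norm ℚ ((N : K)) = (N : ℚ) ^ Module.finrank ℚ K := by
    have : (N : K) = algebraMap ℚ K (N : ℚ) := by simp
    rw [this, Algebra.norm_algebraMap]
  rw [h, h2, hs] at h1
  have h3 : |Algebra.norm ℚ (α : K)| = (N : ℚ) := by
    have h4 := congrArg (fun x : ℚ => |x|) h1
    simp only [abs_pow] at h4
    have h5 : |(N : ℚ)| = (N : ℚ) := abs_of_nonneg (Nat.cast_nonneg N)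
    rw [h5] at h4
    exact (pow_left_inj₀ (abs_nonneg _) (Nat.cast_nonneg N) hpos.ne').mp h4.symm
  rw [absNorm_span_singleton]
  have h6 : ((Algebra.norm ℤ α : ℤ) : ℚ) = Algebra.norm ℚ (α : K) := Algebra.coe_norm_int α
  rw [← h6] at h3
  have h7 : (|Algebra.norm ℤ α| : ℤ) = (N : ℤ) := by
    have : ((|Algebra.norm ℤ α| : ℤ) : ℚ) = ((N : ℤ) : ℚ) := by
      rw [Int.cast_abs]; simpa using h3
    exact_mod_cast this
  have h8 := congrArg Int.natAbs h7
  rw [Int.natAbs_abs, Int.natAbs_natCast] at h8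
  exact h8

end norm

section prime

variable (p : ℕ) [hp : Fact p.Prime]

/-- the order of a prime `q ≠ p` modulo `p` is positive. -/
theorem h2_orderOf_pos (q : ℕ) [hq : Fact q.Prime] (hqp : q ≠ p) :
    0 < orderOf (q : ZMod p) := by
  rw [orderOf_pos_iff, isOfFinOrder_iff_pow_eq_one]
  refine ⟨p - 1, Nat.sub_pos_of_lt hp.out.one_lt, ?_⟩
  apply ZMod.pow_card_sub_one_eq_one
  intro h0
  rw [ZMod.natCast_eq_zero_iff] at h0
  exact hqp ((Nat.prime_dvd_prime_iff_eq hp.out hq.out).mp h0).symm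

/-- If `(α)` has absolute norm `q ^ f`, `f` the order of `q` modulo `p`, then `(α)` is a prime
ideal over `q`; in particular there is a principal prime over `q`. -/
theorem h2_exists_principal_of_absNorm (q : ℕ) [hq : Fact q.Prime] (hqp : q ≠ p)
    (α : 𝓞 (CyclotomicField p ℚ))
    (h : absNorm (span {α}) = q ^ orderOf (q : ZMod p)) :
    ∃ P ∈ primesOver (span {(q : ℤ)}) (𝓞 (CyclotomicField p ℚ)), Submodule.IsPrincipal P := by
  haveI := h2_cyc p
  have hf := h2_orderOf_pos p q hqp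
  set f := orderOf (q : ZMod p) with hfdef
  have hne : span {α} ≠ (⊤ : Ideal (𝓞 (CyclotomicField p ℚ))) := by
    intro htop
    rw [htop, absNorm_top] at h
    have : 1 < q ^ f := Nat.one_lt_pow hf.ne' hq.out.one_lt
    omega
  obtain ⟨P, hPmax, hle⟩ := exists_le_maximal _ hne
  haveI hPprime : P.IsPrime := hPmax.isPrime
  have hqP : ((q : ℤ) : 𝓞 (CyclotomicField p ℚ)) ∈ P := by
    have h1 : ((absNorm (span {α}) : ℕ) : 𝓞 (CyclotomicField p ℚ)) ∈ span {α} := absNorm_mem _
    rw [h, Nat.cast_pow] at h1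
    have h2 := hPprime.mem_of_pow_mem f (hle h1)
    simpa using h2
  have hqmax : (span {(q : ℤ)} : Ideal ℤ).IsMaximal :=
    (isPrime_of_prime (prime_span_singleton_iff.mpr
      (Nat.prime_iff_prime_int.mp hq.out))).isMaximal (by simp [hq.out.ne_zero])
  haveI hlies : P.LiesOver (span {(q : ℤ)}) := by
    constructor
    refine hqmax.eq_of_le ?_ ?_
    · exact (Ideal.IsPrime.under ℤ P).ne_top
    · rw [span_singleton_le_iff_mem]
      exact Ideal.mem_comap.mpr (by simpa using hqP)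
  have hdeg : P.inertiaDeg ℤ = f :=
    IsCyclotomicExtension.Rat.inertiaDeg_eq_of_not_dvd q (CyclotomicField p ℚ) P
      (fun hd => hqp ((Nat.prime_dvd_prime_iff_eq hq.out hp.out).mp hd))
  have hnorm : absNorm P = q ^ f := by
    have := natAbs_pow_inertiaDeg (q : ℤ) P
    rw [hdeg, Int.natAbs_natCast] at this
    exact this.symm
  -- `span {α} = P`
  have heq : span {α} = P := by
    obtain ⟨J, hJ⟩ := Ideal.dvd_iff_le.mpr hle
    have h3 : absNorm (span {α}) = absNorm P * absNorm J := by rw [hJ, map_mul]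
    rw [h, hnorm] at h3
    have h4 : absNorm J = 1 := by
      have hpos : 0 < q ^ f := pow_pos hq.out.pos f
      exact (Nat.eq_of_mul_eq_mul_left hpos (by rw [mul_one]; exact h3)).symm
    rw [absNorm_eq_one_iff] at h4
    rw [hJ, h4, mul_top]
  exact ⟨P, ⟨hPprime, hlies⟩, heq ▸ ⟨⟨α, rfl⟩⟩⟩

/-- The prime over `p` is principal. -/
theorem h2_exists_principal_over_self :
    ∃ P ∈ primesOver (span {(p : ℤ)}) (𝓞 (CyclotomicField p ℚ)), Submodule.IsPrincipal P := by
  haveI := h2_cyc p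
  have hζ := IsCyclotomicExtension.zeta_spec p ℚ (CyclotomicField p ℚ)
  refine ⟨span {hζ.toInteger - 1}, ⟨IsCyclotomicExtension.Rat.isPrime_span_zeta_sub_one' p hζ, ?_⟩,
    ⟨⟨_, rfl⟩⟩⟩
  haveI : IsCyclotomicExtension {p ^ (0 + 1)} ℚ (CyclotomicField p ℚ) := by
    simpa using h2_cyc p
  have hζ' : IsPrimitiveRoot (IsCyclotomicExtension.zeta p ℚ (CyclotomicField p ℚ))
      (p ^ (0 + 1)) := by simpa using hζ
  have := IsCyclotomicExtension.Rat.liesOver_span_zeta_sub_one p 0 hζ'
  exact this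

/-- lower bound for `q ^ (order of q mod p)` from finitely many checks. -/
theorem h2_lt_pow_orderOf (q B k : ℕ) [hq : Fact q.Prime] (hqp : q ≠ p)
    (hk : ∀ j ∈ Finset.Ioo 0 k, (q : ZMod p) ^ j ≠ 1) (hB : B < q ^ k) :
    B < q ^ orderOf (q : ZMod p) := by
  have hpos := h2_orderOf_pos p q hqp
  have hle : k ≤ orderOf (q : ZMod p) := by
    by_contra hlt
    rw [not_le] at hlt
    exact hk _ (Finset.mem_Ioo.mpr ⟨hpos, hlt⟩) (pow_orderOf_eq_one _)
  exact lt_of_lt_of_le hB (Nat.pow_le_pow_right hq.out.pos hle)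

/-- the chosen primitive `p`-th root of unity of `CyclotomicField p ℚ`. -/
noncomputable def h2_zeta : CyclotomicField p ℚ :=
  haveI := h2_cyc p
  IsCyclotomicExtension.zeta p ℚ (CyclotomicField p ℚ)

theorem h2_zeta_spec : IsPrimitiveRoot (h2_zeta p) p := by
  haveI := h2_cyc p
  exact IsCyclotomicExtension.zeta_spec p ℚ (CyclotomicField p ℚ)

/-- the primitive root as an algebraic integer. -/
noncomputable def h2_zetaInt : 𝓞 (CyclotomicField p ℚ) := (h2_zeta_spec p).toInteger

theorem h2_zetaInt_coe : ((h2_zetaInt p : 𝓞 (CyclotomicField p ℚ)) : CyclotomicField p ℚ) =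
    h2_zeta p := rfl

theorem h2_zeta_pow : h2_zeta p ^ p = 1 := (h2_zeta_spec p).pow_eq_one

theorem h2_zeta_geom_sum : ∑ i ∈ Finset.range p, h2_zeta p ^ i = 0 :=
  (h2_zeta_spec p).geom_sum_eq_zero hp.out.one_lt

theorem h2_finrank : Module.finrank ℚ (CyclotomicField p ℚ) = p - 1 := by
  haveI := h2_cyc p
  rw [IsCyclotomicExtension.finrank (n := p) (CyclotomicField p ℚ)
    (cyclotomic.irreducible_rat hp.out.pos), Nat.totient_prime hp.out]

/-- automorphisms `ζ ↦ ζ ^ k`. -/
theorem h2_exists_aut (k : ℕ) (hk : ¬ p ∣ k) :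
    ∃ σ : CyclotomicField p ℚ ≃ₐ[ℚ] CyclotomicField p ℚ, σ (h2_zeta p) = h2_zeta p ^ k := by
  haveI := h2_cyc p
  have hμ : IsPrimitiveRoot (h2_zeta p ^ k) p :=
    (h2_zeta_spec p).pow_of_coprime k
      ((Nat.Prime.coprime_iff_not_dvd hp.out).mpr hk).symm
  exact ⟨IsCyclotomicExtension.fromZetaAut hμ (cyclotomic.irreducible_rat hp.out.pos),
    IsCyclotomicExtension.fromZetaAut_spec hμ (cyclotomic.irreducible_rat hp.out.pos)⟩

theorem h2_coe_aeval (g : ℤ[X]) :
    ((aeval (h2_zetaInt p) g : 𝓞 (CyclotomicField p ℚ)) : CyclotomicField p ℚ) =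
      aeval (h2_zeta p) g := by
  have h1 : ((aeval (h2_zetaInt p) g : 𝓞 (CyclotomicField p ℚ)) : CyclotomicField p ℚ) =
      algebraMap (𝓞 (CyclotomicField p ℚ)) (CyclotomicField p ℚ) (aeval (h2_zetaInt p) g) := rfl
  rw [h1, ← aeval_algebraMap_apply]
  rfl

theorem h2_map_aeval {L : Type*} [Field L] [Algebra ℚ L] (σ : L ≃ₐ[ℚ] L) (x : L) (g : ℤ[X]) :
    σ (aeval x g) = aeval (σ x) g := by
  have h1 := Polynomial.hom_eval₂ g (Int.castRingHom L) (σ : L →+* L) x
  have h2 : (σ : L →+* L).comp (Int.castRingHom L) = Int.castRingHom L := Subsingleton.elim _ _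
  rw [h2] at h1
  rw [aeval_def, aeval_def, algebraMap_int_eq]
  exact h1

/-- norm of `g(ζ)` from the identity `∏_{k=1}^{p-1} g(ζ^k) = N` in `ℚ(ζ)`. -/
theorem h2_absNorm_aeval (g : ℤ[X]) (N : ℕ)
    (h : ∏ k ∈ Finset.Icc 1 (p - 1), aeval (h2_zeta p ^ k) g = (N : CyclotomicField p ℚ)) :
    absNorm (span {(aeval (h2_zetaInt p) g : 𝓞 (CyclotomicField p ℚ))}) = N := by
  classical
  have hex : ∀ k : ℕ, ∃ σ : CyclotomicField p ℚ ≃ₐ[ℚ] CyclotomicField p ℚ,
      k ∈ Finset.Icc 1 (p - 1) → σ (h2_zeta p) = h2_zeta p ^ k := by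
    intro k
    by_cases hk : k ∈ Finset.Icc 1 (p - 1)
    · obtain ⟨h1, h2⟩ := Finset.mem_Icc.mp hk
      have hnd : ¬ p ∣ k := by
        intro hd
        have := Nat.le_of_dvd (by omega) hd
        have := hp.out.one_lt
        omega
      obtain ⟨σ, hσ⟩ := h2_exists_aut p k hnd
      exact ⟨σ, fun _ => hσ⟩
    · exact ⟨AlgEquiv.refl, fun h => absurd h hk⟩
  choose σ hσ using hex
  refine h2_absNorm_span_of_prod_conj (Finset.Icc 1 (p - 1)) σ ?_ _ N ?_
  · rw [h2_finrank, Nat.card_Icc]; omega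
  · rw [← h]
    refine Finset.prod_congr rfl fun k hk => ?_
    rw [h2_coe_aeval]
    exact (h2_map_aeval (σ k) (h2_zeta p) g).trans (by rw [hσ k hk]; rfl)

end prime

end Fermat.Agent.Kummer
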