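import Fermat.Agent.Kummer.PIDCommon12
import Fermat.Agent.Kummer.PIDCommon25
import Fermat.Agent.Kummer.PIDCommonH2

/-!
# T-Kum K1: umbrella file for the shared PID tools

Three seats landed a file with this name within minutes of each other; the contents now live in
`PIDCommon12.lean` (helper12, `h12_*`), `PIDCommon25.lean` (helper25, `h25p_*`) and
`PIDCommonH2.lean` (helper2, `h2_*`).  This file only re-exports them, so that every
`import Fermat.Agent.Kummer.PIDCommon` keeps working.  PLEASE DO NOT OVERWRITE THIS FILE:
add new shared lemmas to your own `PIDCommon<seat>.lean`.
-/
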