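import Mathlib
import Fermat.Agent.Kummer.PIDCommon

/-!
# T-Kum K1 (helper12): `𝓞 ℚ(ζ₁₁)` is a principal ideal domain

Minkowski bound `< 60`; the only primes `q ≤ 59` having a prime of norm `≤ 59` above them are
`q = 11` (ramified, generated by `ζ - 1`) and `q = 23` (generated by `1 + ζ + ζ³`).
-/

set_option autoImplicit false

open NumberField Polynomial InfinitePlace Nat Real Ideal IsCyclotomicExtension.Rat

namespace Fermat.Agent.Kummer

/-- Upper bound for the Minkowski bound of `ℚ(ζ₁₁)`. -/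
lemma h12_minkowski_eleven (K : Type) [Field K] [NumberField K]
    [IsCyclotomicExtension {11} ℚ K] :
    ⌊(4 / π) ^ nrComplexPlaces K *
      ((Module.finrank ℚ K)! / (Module.finrank ℚ K) ^ (Module.finrank ℚ K) * √|discr K|)⌋₊
        ≤ 59 := by
  have : Fact (Nat.Prime 11) := ⟨by norm_num⟩
  rw [discr_prime 11 K, IsCyclotomicExtension.finrank (n := 11) K
    (cyclotomic.irreducible_rat (by simp)), nrComplexPlaces_eq_totient_div_two 11,
    totient_prime (by norm_num : Nat.Prime 11)]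
  refine h12_floor_bound _ 59 _ _ 48559 3.14 (by norm_num) pi_gt_d2 (by positivity)
    (by norm_num) ?_ ?_
  · norm_num [Nat.factorial]
  · norm_num [Nat.factorial]

/-- The prime above `23` generated by `1 + ζ + ζ ^ 3` is principal. -/
lemma h12_prime_11_23 (K : Type) [Field K] [NumberField K] [IsCyclotomicExtension {11} ℚ K] (B : ℕ) :
    ∃ P ∈ primesOver (span {((23 : ℕ) : ℤ)}) (𝓞 K), B < 23 ^ (P.inertiaDeg ℤ) ∨
      Submodule.IsPrincipal P := by
  have hr : ∑ i ∈ Finset.range 11, (((4 : ℤ) : ZMod 23)) ^ i = 0 := by decide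
  have : Fact (Nat.Prime 11) := ⟨by norm_num⟩
  have : Fact (Nat.Prime 23) := ⟨by norm_num⟩
  have hζ := IsCyclotomicExtension.zeta_spec 11 ℚ K
  have hΦ := h12_sum_zeta_pow 11 hζ
  simp only [Finset.sum_range_succ, Finset.sum_range_zero, pow_zero, pow_one, zero_add] at hΦ
  set ζ : 𝓞 K := hζ.toInteger with hζdef
  refine h12_principal_prime_deg_one 11 23 hζ B 4 hr
    (1 + ζ + ζ ^ 3) (-2 - 14 * ζ - 17 * ζ ^ 2 - 12 * ζ ^ 3 - 5 * ζ ^ 4 - 9 * ζ ^ 5 - 10 * ζ ^ 6 - 16 * ζ ^ 7 - 6 * ζ ^ 8 - 15 * ζ ^ 9)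
    (1 + 3 * ζ + 3 * ζ ^ 2 + 2 * ζ ^ 3 + ζ ^ 4 + 2 * ζ ^ 5 + 2 * ζ ^ 6 + 3 * ζ ^ 7 + ζ ^ 8 + 3 * ζ ^ 9)
    (17 + 4 * ζ + ζ ^ 2) (3) ?_ ?_ ?_
  · push_cast
    linear_combination (-25 + 9 * ζ - 15 * ζ ^ 2) * hΦ
  · push_cast
    linear_combination (5 - 2 * ζ + 3 * ζ ^ 2) * hΦ
  · push_cast
    ring

/-- If `IsCyclotomicExtension {11} ℚ K` then `𝓞 K` is a principal ideal domain. -/
theorem h12_pid_eleven (K : Type) [Field K] [NumberField K] [IsCyclotomicExtension {11} ℚ K] :
    IsPrincipalIdealRing (𝓞 K) := by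
  have : Fact (Nat.Prime 11) := ⟨by norm_num⟩
  have : IsGalois ℚ K := IsCyclotomicExtension.isGalois {11} ℚ K
  refine h12_pid_of_bound K 59 (h12_minkowski_eleven K) (fun q hq hqp => ?_)
  obtain ⟨hq1, hq2⟩ := Finset.mem_Icc.mp hq
  have : Fact q.Prime := ⟨hqp⟩
  by_cases hq8 : q < 8
  · interval_cases q
    · exact absurd hqp (by norm_num)
    · exact h12_exists_prime_pow_gt 11 2 K 59 6 (by norm_num)
        (fun k hk0 hk => by interval_cases k <;> decide +revert) (by norm_num)
    · exact h12_exists_prime_pow_gt 11 3 K 59 4 (by norm_num)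
        (fun k hk0 hk => by interval_cases k <;> decide +revert) (by norm_num)
    · exact absurd hqp (by norm_num)
    · exact h12_exists_prime_pow_gt 11 5 K 59 3 (by norm_num)
        (fun k hk0 hk => by interval_cases k <;> decide +revert) (by norm_num)
    · exact absurd hqp (by norm_num)
    · exact h12_exists_prime_pow_gt 11 7 K 59 3 (by norm_num)
        (fun k hk0 hk => by interval_cases k <;> decide +revert) (by norm_num)
  · have hq8' : 8 ≤ q := not_lt.mp hq8
    by_cases hq11 : q = 11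
    · subst hq11
      exact h12_exists_prime_ramified 11 K 59
    by_cases hq23 : q = 23
    · subst hq23
      exact h12_prime_11_23 K 59
    · have hqp11 : ¬ q ∣ 11 := by
        intro h
        rcases (Nat.dvd_prime (by norm_num : Nat.Prime 11)).mp h with h1 | h1
        · omega
        · exact hq11 h1
      have hq1' : q % 11 ≠ 1 := by
        intro h
        interval_cases q <;> simp_all (config := { decide := true })
      exact h12_exists_prime_sq_gt 11 q K 59 hqp11 hq1' (by nlinarith)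

/-- `𝓞 ℚ(ζ₁₁)` is a principal ideal domain. -/
theorem pid_eleven : IsPrincipalIdealRing (𝓞 (CyclotomicField 11 ℚ)) := by
  have : IsCyclotomicExtension {11} ℚ (CyclotomicField 11 ℚ) :=
    CyclotomicField.isCyclotomicExtension 11 ℚ
  exact h12_pid_eleven (CyclotomicField 11 ℚ)

end Fermat.Agent.Kummer
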