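import Mathlib
import Fermat.Agent.Kummer.PIDCommon

/-!
# T-Kum K1 (helper12): `𝓞 ℚ(ζ₁₃)` is a principal ideal domain

Minkowski bound `< 308`; the primes `q ≤ 307` having a prime of norm `≤ 307` above them are
`q = 13` (ramified, generated by `ζ - 1`), `q = 3` (inertia degree `3`, generated by
`1 + ζ - ζ³`) and `q = 53, 79, 131, 157` (split, with explicit generators).
-/

set_option autoImplicit false

open NumberField Polynomial InfinitePlace Nat Real Ideal IsCyclotomicExtension.Rat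

namespace Fermat.Agent.Kummer

/-- Upper bound for the Minkowski bound of `ℚ(ζ₁₃)`. -/
lemma h12_minkowski_thirteen (K : Type) [Field K] [NumberField K]
    [IsCyclotomicExtension {13} ℚ K] :
    ⌊(4 / π) ^ nrComplexPlaces K *
      ((Module.finrank ℚ K)! / (Module.finrank ℚ K) ^ (Module.finrank ℚ K) * √|discr K|)⌋₊
        ≤ 307 := by
  have : Fact (Nat.Prime 13) := ⟨by norm_num⟩
  rw [discr_prime 13 K, IsCyclotomicExtension.finrank (n := 13) K
    (cyclotomic.irreducible_rat (by simp)), nrComplexPlaces_eq_totient_div_two 13,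
    totient_prime (by norm_num : Nat.Prime 13)]
  refine h12_floor_bound _ 307 _ _ 1338717 3.14 (by norm_num) pi_gt_d2 (by positivity)
    (by norm_num) ?_ ?_
  · norm_num [Nat.factorial]
  · norm_num [Nat.factorial]

/-! ### The prime above `3` -/

/-- The cubic `X³ - X - 1` over `ℤ`. -/
noncomputable def h12_cubic : ℤ[X] := X ^ 3 - X - 1

lemma h12_cubic_map : h12_cubic.map (Int.castRingHom (ZMod 3)) = X ^ 3 - X - 1 := by
  simp [h12_cubic]

lemma h12_cubic_no_root : ∀ x : ZMod 3, x ^ 3 - x - 1 ≠ 0 := by decide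

lemma h12_cubic_irreducible : Irreducible (h12_cubic.map (Int.castRingHom (ZMod 3))) := by
  have : Fact (Nat.Prime 3) := ⟨by norm_num⟩
  rw [h12_cubic_map]
  have hdeg : (X ^ 3 - X - 1 : (ZMod 3)[X]).natDegree = 3 := by
    compute_degree!
  refine irreducible_of_degree_le_three_of_not_isRoot (by rw [hdeg]; decide) ?_
  intro x
  simp only [IsRoot.def, eval_sub, eval_pow, eval_X, eval_one]
  exact h12_cubic_no_root x

lemma h12_cubic_dvd : h12_cubic.map (Int.castRingHom (ZMod 3)) ∣ cyclotomic 13 (ZMod 3) := by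
  have hZ : cyclotomic 13 ℤ = h12_cubic * (-1 - X ^ 2 - X ^ 3 + X ^ 5 - X ^ 7 + X ^ 8 + X ^ 9) +
      C (3 : ℤ) * (X ^ 5 + X ^ 6 + X ^ 9 + X ^ 10) := by
    have : Fact (Nat.Prime 13) := ⟨by norm_num⟩
    rw [cyclotomic_prime ℤ 13, h12_cubic]
    simp only [Finset.sum_range_succ, Finset.sum_range_zero, pow_zero, pow_one, zero_add]
    simp only [map_ofNat]
    ring
  have h := congrArg (Polynomial.map (Int.castRingHom (ZMod 3))) hZ
  rw [map_cyclotomic] at h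
  rw [h, Polynomial.map_add, Polynomial.map_mul, Polynomial.map_mul, Polynomial.map_C]
  have h3 : (Int.castRingHom (ZMod 3)) 3 = 0 := by decide
  rw [h3, C_0, zero_mul, add_zero]
  exact dvd_mul_right _ _

/-- The prime above `3` generated by `1 + ζ - ζ ^ 3` is principal. -/
lemma h12_prime_13_3 (K : Type) [Field K] [NumberField K] [IsCyclotomicExtension {13} ℚ K]
    (B : ℕ) :
    ∃ P ∈ primesOver (span {((3 : ℕ) : ℤ)}) (𝓞 K), B < 3 ^ (P.inertiaDeg ℤ) ∨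
      Submodule.IsPrincipal P := by
  have : Fact (Nat.Prime 13) := ⟨by norm_num⟩
  have : Fact (Nat.Prime 3) := ⟨by norm_num⟩
  have hζ := IsCyclotomicExtension.zeta_spec 13 ℚ K
  have hΦ := h12_sum_zeta_pow 13 hζ
  simp only [Finset.sum_range_succ, Finset.sum_range_zero, pow_zero, pow_one, zero_add] at hΦ
  have hgt : aeval hζ.toInteger h12_cubic = hζ.toInteger ^ 3 - hζ.toInteger - 1 := by
    simp [h12_cubic]
  set ζ : 𝓞 K := hζ.toInteger with hζdef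
  refine ⟨span {1 + ζ - ζ ^ 3}, h12_principal_prime 13 3 hζ h12_cubic h12_cubic_irreducible
    h12_cubic_dvd (1 + ζ - ζ ^ 3)
    (-1 - ζ ^ 2 - ζ ^ 3 - 2 * ζ ^ 5 - ζ ^ 7 - 2 * ζ ^ 8 + ζ ^ 9 - 3 * ζ ^ 10)
    (-1) (-1) 0 ?_ ?_ ?_, Or.inr ⟨⟨_, rfl⟩⟩⟩
  · push_cast
    linear_combination (-4 + 3 * ζ) * hΦ
  · rw [hgt]
    ring
  · rw [hgt]
    ring

/-! ### The split primes `53, 79, 131, 157` -/

/-- The prime above `53` generated by `1 + ζ + ζ ^ 3` is principal. -/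
lemma h12_prime_13_53 (K : Type) [Field K] [NumberField K] [IsCyclotomicExtension {13} ℚ K] (B : ℕ) :
    ∃ P ∈ primesOver (span {((53 : ℕ) : ℤ)}) (𝓞 K), B < 53 ^ (P.inertiaDeg ℤ) ∨
      Submodule.IsPrincipal P := by
  have hr : ∑ i ∈ Finset.range 13, ((((-17) : ℤ) : ZMod 53)) ^ i = 0 := by decide
  have : Fact (Nat.Prime 13) := ⟨by norm_num⟩
  have : Fact (Nat.Prime 53) := ⟨by norm_num⟩
  have hζ := IsCyclotomicExtension.zeta_spec 13 ℚ K
  have hΦ := h12_sum_zeta_pow 13 hζ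
  simp only [Finset.sum_range_succ, Finset.sum_range_zero, pow_zero, pow_one, zero_add] at hΦ
  set ζ : 𝓞 K := hζ.toInteger with hζdef
  refine h12_principal_prime_deg_one 13 53 hζ B (-17) hr
    (1 + ζ + ζ ^ 3) (1 - 24 * ζ - 35 * ζ ^ 2 - 25 * ζ ^ 3 - 10 * ζ ^ 4 - 14 * ζ ^ 5 - 20 * ζ ^ 6 - 29 * ζ ^ 7 - 16 * ζ ^ 8 - 23 * ζ ^ 9 - 7 * ζ ^ 10 - 36 * ζ ^ 11)
    (1 - 7 * ζ - 11 * ζ ^ 2 - 8 * ζ ^ 3 - 3 * ζ ^ 4 - 4 * ζ ^ 5 - 6 * ζ ^ 6 - 9 * ζ ^ 7 - 5 * ζ ^ 8 - 7 * ζ ^ 9 - 2 * ζ ^ 10 - 11 * ζ ^ 11)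
    (290 - 17 * ζ + ζ ^ 2) (-93) ?_ ?_ ?_
  · push_cast
    linear_combination (-52 + 29 * ζ - 36 * ζ ^ 2) * hΦ
  · push_cast
    linear_combination (-16 + 9 * ζ - 11 * ζ ^ 2) * hΦ
  · push_cast
    ring

/-- The prime above `79` generated by `1 + ζ - ζ ^ 4` is principal. -/
lemma h12_prime_13_79 (K : Type) [Field K] [NumberField K] [IsCyclotomicExtension {13} ℚ K] (B : ℕ) :
    ∃ P ∈ primesOver (span {((79 : ℕ) : ℤ)}) (𝓞 K), B < 79 ^ (P.inertiaDeg ℤ) ∨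
      Submodule.IsPrincipal P := by
  have hr : ∑ i ∈ Finset.range 13, ((((-15) : ℤ) : ZMod 79)) ^ i = 0 := by decide
  have : Fact (Nat.Prime 13) := ⟨by norm_num⟩
  have : Fact (Nat.Prime 79) := ⟨by norm_num⟩
  have hζ := IsCyclotomicExtension.zeta_spec 13 ℚ K
  have hΦ := h12_sum_zeta_pow 13 hζ
  simp only [Finset.sum_range_succ, Finset.sum_range_zero, pow_zero, pow_one, zero_add] at hΦ
  set ζ : 𝓞 K := hζ.toInteger with hζdef
  refine h12_principal_prime_deg_one 13 79 hζ B (-15) hr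
    (1 + ζ - ζ ^ 4) (24 - 25 * ζ - 27 * ζ ^ 2 + 10 * ζ ^ 3 - 3 * ζ ^ 4 - 39 * ζ ^ 5 - 5 * ζ ^ 6 - 2 * ζ ^ 7 - 18 * ζ ^ 8 - 38 * ζ ^ 9 + 16 * ζ ^ 10 - 35 * ζ ^ 11)
    (5 - 4 * ζ - 5 * ζ ^ 2 + 2 * ζ ^ 3 - 7 * ζ ^ 5 - ζ ^ 6 - 3 * ζ ^ 8 - 7 * ζ ^ 9 + 3 * ζ ^ 10 - 6 * ζ ^ 11)
    (3376 - 225 * ζ + 15 * ζ ^ 2 - ζ ^ 3) (-641) ?_ ?_ ?_
  · push_cast
    linear_combination (-55 + 54 * ζ - 51 * ζ ^ 2 + 35 * ζ ^ 3) * hΦ
  · push_cast
    linear_combination (-10 + 10 * ζ - 9 * ζ ^ 2 + 6 * ζ ^ 3) * hΦ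
  · push_cast
    ring

/-- The prime above `131` generated by `1 - ζ - ζ ^ 3` is principal. -/
lemma h12_prime_13_131 (K : Type) [Field K] [NumberField K] [IsCyclotomicExtension {13} ℚ K] (B : ℕ) :
    ∃ P ∈ primesOver (span {((131 : ℕ) : ℤ)}) (𝓞 K), B < 131 ^ (P.inertiaDeg ℤ) ∨
      Submodule.IsPrincipal P := by
  have hr : ∑ i ∈ Finset.range 13, ((((-51) : ℤ) : ZMod 131)) ^ i = 0 := by decide
  have : Fact (Nat.Prime 13) := ⟨by norm_num⟩
  have : Fact (Nat.Prime 131) := ⟨by norm_num⟩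
  have hζ := IsCyclotomicExtension.zeta_spec 13 ℚ K
  have hΦ := h12_sum_zeta_pow 13 hζ
  simp only [Finset.sum_range_succ, Finset.sum_range_zero, pow_zero, pow_one, zero_add] at hΦ
  set ζ : 𝓞 K := hζ.toInteger with hζdef
  refine h12_principal_prime_deg_one 13 131 hζ B (-51) hr
    (1 - ζ - ζ ^ 3) (111 + 78 * ζ + 17 * ζ ^ 2 + 67 * ζ ^ 3 + 84 * ζ ^ 4 + 40 * ζ ^ 5 + 46 * ζ ^ 6 + 69 * ζ ^ 7 + 48 * ζ ^ 8 + 33 * ζ ^ 9 + 41 * ζ ^ 10 + 28 * ζ ^ 11)
    (43 + 31 * ζ + 7 * ζ ^ 2 + 26 * ζ ^ 3 + 33 * ζ ^ 4 + 16 * ζ ^ 5 + 18 * ζ ^ 6 + 27 * ζ ^ 7 + 19 * ζ ^ 8 + 13 * ζ ^ 9 + 16 * ζ ^ 10 + 11 * ζ ^ 11)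
    (-2602 + 51 * ζ - ζ ^ 2) (1013) ?_ ?_ ?_
  · push_cast
    linear_combination (-20 - 13 * ζ - 28 * ζ ^ 2) * hΦ
  · push_cast
    linear_combination (-8 - 5 * ζ - 11 * ζ ^ 2) * hΦ
  · push_cast
    ring

/-- The prime above `157` generated by `1 - ζ + ζ ^ 2 + ζ ^ 4` is principal. -/
lemma h12_prime_13_157 (K : Type) [Field K] [NumberField K] [IsCyclotomicExtension {13} ℚ K] (B : ℕ) :
    ∃ P ∈ primesOver (span {((157 : ℕ) : ℤ)}) (𝓞 K), B < 157 ^ (P.inertiaDeg ℤ) ∨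
      Submodule.IsPrincipal P := by
  have hr : ∑ i ∈ Finset.range 13, (((75 : ℤ) : ZMod 157)) ^ i = 0 := by decide
  have : Fact (Nat.Prime 13) := ⟨by norm_num⟩
  have : Fact (Nat.Prime 157) := ⟨by norm_num⟩
  have hζ := IsCyclotomicExtension.zeta_spec 13 ℚ K
  have hΦ := h12_sum_zeta_pow 13 hζ
  simp only [Finset.sum_range_succ, Finset.sum_range_zero, pow_zero, pow_one, zero_add] at hΦ
  set ζ : 𝓞 K := hζ.toInteger with hζdef
  refine h12_principal_prime_deg_one 13 157 hζ B 75 hr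
    (1 - ζ + ζ ^ 2 + ζ ^ 4) (89 + 86 * ζ + 42 * ζ ^ 2 + 77 * ζ ^ 3 + 67 * ζ ^ 4 + 25 * ζ ^ 5 + 37 * ζ ^ 6 + 56 * ζ ^ 7 + 73 * ζ ^ 8 + 113 * ζ ^ 9 + 124 * ζ ^ 10 + 76 * ζ ^ 11)
    (-43 - 41 * ζ - 20 * ζ ^ 2 - 37 * ζ ^ 3 - 32 * ζ ^ 4 - 12 * ζ ^ 5 - 18 * ζ ^ 6 - 27 * ζ ^ 7 - 35 * ζ ^ 8 - 54 * ζ ^ 9 - 59 * ζ ^ 10 - 36 * ζ ^ 11)
    (421949 + 5626 * ζ + 75 * ζ ^ 2 + ζ ^ 3) (201568) ?_ ?_ ?_
  · push_cast
    linear_combination (-68 + 65 * ζ + 48 * ζ ^ 2 + 76 * ζ ^ 3) * hΦ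
  · push_cast
    linear_combination (32 - 31 * ζ - 23 * ζ ^ 2 - 36 * ζ ^ 3) * hΦ
  · push_cast
    ring

/-! ### The main theorem -/

/-- The primes `q ≡ 1 mod 13` with `18 ≤ q ≤ 307` are `53, 79, 131, 157`. -/
lemma h12_primes_one_mod_thirteen (q : ℕ) (hq : q.Prime) (h18 : 18 ≤ q) (h307 : q ≤ 307)
    (h1 : q % 13 = 1) : q = 53 ∨ q = 79 ∨ q = 131 ∨ q = 157 := by
  obtain ⟨k, rfl⟩ : ∃ k, q = 13 * k + 1 := ⟨q / 13, by omega⟩
  have hk : k ≤ 23 := by omega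
  have hk2 : 2 ≤ k := by omega
  interval_cases k <;> first | omega | (exfalso; revert hq; norm_num)

/-- If `IsCyclotomicExtension {13} ℚ K` then `𝓞 K` is a principal ideal domain. -/
theorem h12_pid_thirteen (K : Type) [Field K] [NumberField K] [IsCyclotomicExtension {13} ℚ K] :
    IsPrincipalIdealRing (𝓞 K) := by
  have : Fact (Nat.Prime 13) := ⟨by norm_num⟩
  have : IsGalois ℚ K := IsCyclotomicExtension.isGalois {13} ℚ K
  refine h12_pid_of_bound K 307 (h12_minkowski_thirteen K) (fun q hq hqp => ?_)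
  obtain ⟨hq1, hq2⟩ := Finset.mem_Icc.mp hq
  have : Fact q.Prime := ⟨hqp⟩
  by_cases hq18 : q < 18
  · interval_cases q
    · exact absurd hqp (by norm_num)
    · exact h12_exists_prime_pow_gt 13 2 K 307 9 (by norm_num)
        (fun k hk0 hk => by interval_cases k <;> decide +revert) (by norm_num)
    · exact h12_prime_13_3 K 307
    · exact absurd hqp (by norm_num)
    · exact h12_exists_prime_pow_gt 13 5 K 307 4 (by norm_num)
        (fun k hk0 hk => by interval_cases k <;> decide +revert) (by norm_num)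
    · exact absurd hqp (by norm_num)
    · exact h12_exists_prime_pow_gt 13 7 K 307 3 (by norm_num)
        (fun k hk0 hk => by interval_cases k <;> decide +revert) (by norm_num)
    · exact absurd hqp (by norm_num)
    · exact absurd hqp (by norm_num)
    · exact absurd hqp (by norm_num)
    · exact h12_exists_prime_pow_gt 13 11 K 307 3 (by norm_num)
        (fun k hk0 hk => by interval_cases k <;> decide +revert) (by norm_num)
    · exact absurd hqp (by norm_num)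
    · exact h12_exists_prime_ramified 13 K 307
    · exact absurd hqp (by norm_num)
    · exact absurd hqp (by norm_num)
    · exact absurd hqp (by norm_num)
    · exact h12_exists_prime_pow_gt 13 17 K 307 3 (by norm_num)
        (fun k hk0 hk => by interval_cases k <;> decide +revert) (by norm_num)
  · have hq18' : 18 ≤ q := not_lt.mp hq18
    by_cases hq1' : q % 13 = 1
    · rcases h12_primes_one_mod_thirteen q hqp hq18' hq2 hq1' with rfl | rfl | rfl | rfl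
      · exact h12_prime_13_53 K 307
      · exact h12_prime_13_79 K 307
      · exact h12_prime_13_131 K 307
      · exact h12_prime_13_157 K 307
    · have hqp13 : ¬ q ∣ 13 := by
        intro h
        rcases (Nat.dvd_prime (by norm_num : Nat.Prime 13)).mp h with h1 | h1
        · omega
        · omega
      exact h12_exists_prime_sq_gt 13 q K 307 hqp13 hq1' (by nlinarith)

/-- `𝓞 ℚ(ζ₁₃)` is a principal ideal domain. -/
theorem pid_thirteen : IsPrincipalIdealRing (𝓞 (CyclotomicField 13 ℚ)) := by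
  have : IsCyclotomicExtension {13} ℚ (CyclotomicField 13 ℚ) :=
    CyclotomicField.isCyclotomicExtension 13 ℚ
  exact h12_pid_thirteen (CyclotomicField 13 ℚ)

end Fermat.Agent.Kummer
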