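import Mathlib
import Fermat.Agent.Kummer.PIDCommon

/-!
# T-Kum K1 (helper12): `𝓞 ℚ(ζ₇)` is a principal ideal domain
-/

set_option autoImplicit false

open NumberField Polynomial InfinitePlace Nat Real Ideal IsCyclotomicExtension.Rat

namespace Fermat.Agent.Kummer

/-- Upper bound for the Minkowski bound of `ℚ(ζ₇)`. -/
lemma h12_minkowski_seven (K : Type) [Field K] [NumberField K] [IsCyclotomicExtension {7} ℚ K] :
    ⌊(4 / π) ^ nrComplexPlaces K *
      ((Module.finrank ℚ K)! / (Module.finrank ℚ K) ^ (Module.finrank ℚ K) * √|discr K|)⌋₊ ≤ 4 := by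
  have : Fact (Nat.Prime 7) := ⟨by norm_num⟩
  rw [discr_prime 7 K, IsCyclotomicExtension.finrank (n := 7) K
    (cyclotomic.irreducible_rat (by simp)), nrComplexPlaces_eq_totient_div_two 7,
    totient_prime (by norm_num : Nat.Prime 7)]
  refine h12_floor_bound _ 4 _ _ 130 3 (by norm_num) pi_gt_three (by positivity) (by norm_num) ?_ ?_
  · norm_num [Nat.factorial]
  · norm_num [Nat.factorial]

/-- If `IsCyclotomicExtension {7} ℚ K` then `𝓞 K` is a principal ideal domain. -/
theorem h12_pid_seven (K : Type) [Field K] [NumberField K] [IsCyclotomicExtension {7} ℚ K] :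
    IsPrincipalIdealRing (𝓞 K) := by
  have : Fact (Nat.Prime 7) := ⟨by norm_num⟩
  have : IsGalois ℚ K := IsCyclotomicExtension.isGalois {7} ℚ K
  refine h12_pid_of_bound K 4 (h12_minkowski_seven K) (fun q hq hqp => ?_)
  obtain ⟨hq1, hq2⟩ := Finset.mem_Icc.mp hq
  have : Fact q.Prime := ⟨hqp⟩
  interval_cases q
  · exact absurd hqp (by norm_num)
  · exact h12_exists_prime_pow_gt 7 2 K 4 3 (by norm_num)
      (fun k hk0 hk => by interval_cases k <;> decide +revert) (by norm_num)
  · exact h12_exists_prime_pow_gt 7 3 K 4 2 (by norm_num)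
      (fun k hk0 hk => by interval_cases k <;> decide +revert) (by norm_num)
  · exact absurd hqp (by norm_num)

/-- `𝓞 ℚ(ζ₇)` is a principal ideal domain. -/
theorem pid_seven : IsPrincipalIdealRing (𝓞 (CyclotomicField 7 ℚ)) := by
  have : IsCyclotomicExtension {7} ℚ (CyclotomicField 7 ℚ) :=
    CyclotomicField.isCyclotomicExtension 7 ℚ
  exact h12_pid_seven (CyclotomicField 7 ℚ)

end Fermat.Agent.Kummer
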