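import Mathlib
import Fermat.Agent.Kummer.PID7
import Fermat.Agent.Kummer.PID11
import Fermat.Agent.Kummer.PID13

/-!
# T-Kum K1 (helper12): `𝓞 ℚ(ζ_p)` is a PID for `p = 5, 7, 11, 13`
-/

set_option autoImplicit false

open NumberField

namespace Fermat.Agent.Kummer

/-- `𝓞 ℚ(ζ₅)` is a principal ideal domain (Mathlib). -/
theorem pid_five : IsPrincipalIdealRing (𝓞 (CyclotomicField 5 ℚ)) := by
  have : IsCyclotomicExtension {5} ℚ (CyclotomicField 5 ℚ) :=
    CyclotomicField.isCyclotomicExtension 5 ℚ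
  exact IsCyclotomicExtension.Rat.five_pid (CyclotomicField 5 ℚ)

/-- `𝓞 ℚ(ζ_p)` is a principal ideal domain for `p ∈ {5, 7, 11, 13}`. -/
theorem pid_of_mem (p : ℕ) (hp : p = 5 ∨ p = 7 ∨ p = 11 ∨ p = 13) :
    IsPrincipalIdealRing (𝓞 (CyclotomicField p ℚ)) := by
  rcases hp with rfl | rfl | rfl | rfl
  · exact pid_five
  · exact pid_seven
  · exact pid_eleven
  · exact pid_thirteen

end Fermat.Agent.Kummer
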