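import Mathlib

/-!
# T-Kum K1 (helper12): common tools for proving that `𝓞 ℚ(ζ_p)` is a PID

* `h12_floor_bound`: numerical estimate of the Minkowski bound;
* `h12_exists_prime_pow_gt`: primes `q ≠ p` whose order mod `p` is large have norm above the bound;
* `h12_exists_prime_ramified`: the prime above `p` is principal;
* `h12_principal_prime`: certificate criterion for `span {α}` to be a prime over `q`;
* `h12_pid_of_bound`: the Minkowski criterion with an upper bound `B` for the Minkowski bound.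
-/

set_option autoImplicit false

open NumberField Polynomial InfinitePlace Nat Real Ideal IsCyclotomicExtension.Rat

namespace Fermat.Agent.Kummer

/-- Generic numerical estimate for Minkowski bounds. -/
lemma h12_floor_bound (k b : ℕ) (c D s π₀ : ℝ) (hπ₀ : 0 < π₀) (hπ : π₀ < π) (hc : 0 ≤ c)
    (hs0 : 0 ≤ s) (hs : D ≤ s ^ 2) (hb : (4 / π₀) ^ k * (c * s) < b + 1) :
    ⌊(4 / π) ^ k * (c * √D)⌋₊ ≤ b := by
  have h1 : √D ≤ s := by
    calc √D ≤ √(s ^ 2) := Real.sqrt_le_sqrt hs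
      _ = s := Real.sqrt_sq hs0
  have h2 : (4 / π) ^ k ≤ (4 / π₀) ^ k := by
    gcongr
  have h3 : (4 / π) ^ k * (c * √D) ≤ (4 / π₀) ^ k * (c * s) := by
    have : 0 ≤ (4 / π) ^ k := by positivity
    have : 0 ≤ c * √D := mul_nonneg hc (Real.sqrt_nonneg _)
    gcongr
  have h4 : (4 / π) ^ k * (c * √D) < ((b + 1 : ℕ) : ℝ) := by
    push_cast
    exact lt_of_le_of_lt h3 hb
  have h5 : 0 ≤ (4 / π) ^ k * (c * √D) :=
    mul_nonneg (by positivity) (mul_nonneg hc (Real.sqrt_nonneg _))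
  exact Nat.lt_succ_iff.mp ((Nat.floor_lt h5).mpr h4)

section cyclotomic

variable (p q : ℕ) [hp : Fact p.Prime] [hq : Fact q.Prime] (K : Type) [Field K] [NumberField K]
  [IsCyclotomicExtension {p} ℚ K]

/-- A prime `q ≠ p` with `q ^ f₀ > B`, where `f₀` is a lower bound for the order of `q` modulo `p`,
has a prime above it in `ℚ(ζ_p)` of norm `> B`. -/
lemma h12_exists_prime_pow_gt (B f₀ : ℕ)
    (hqp : ¬ q ∣ p) (hord : ∀ k, 0 < k → k < f₀ → (q : ZMod p) ^ k ≠ 1) (hB : B < q ^ f₀) :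
    ∃ P ∈ primesOver (span {(q : ℤ)}) (𝓞 K), B < q ^ (P.inertiaDeg ℤ) ∨
      Submodule.IsPrincipal P := by
  have hqprime : (span {(q : ℤ)} : Ideal ℤ).IsPrime :=
    (Ideal.span_singleton_prime (by exact_mod_cast hq.out.ne_zero)).mpr
      (Nat.prime_iff_prime_int.mp hq.out)
  obtain ⟨⟨P, hP⟩⟩ := (span {(q : ℤ)} : Ideal ℤ).nonempty_primesOver (S := 𝓞 K)
  refine ⟨P, hP, Or.inl ?_⟩
  have hP1 : P.IsPrime := hP.1
  have hP2 : P.LiesOver (span {(q : ℤ)}) := hP.2
  have hpne : NeZero p := ⟨hp.out.ne_zero⟩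
  rw [inertiaDeg_eq_of_not_dvd q K P hqp]
  have hcop : q.Coprime p := (Nat.Prime.coprime_iff_not_dvd hq.out).mpr hqp
  have hpos : 0 < orderOf (q : ZMod p) := by
    have h := orderOf_pos (ZMod.unitOfCoprime q hcop)
    rwa [← orderOf_injective (Units.coeHom (ZMod p)) Units.coeHom_injective
      (ZMod.unitOfCoprime q hcop)] at h
  have hge : f₀ ≤ orderOf (q : ZMod p) := by
    by_contra hlt
    exact hord _ hpos (not_le.mp hlt) (pow_orderOf_eq_one _)
  exact lt_of_lt_of_le hB (Nat.pow_le_pow_right hq.out.pos hge)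

/-- Special case `f₀ = 2`: a prime `q ≢ 1 mod p`, `q ≠ p`, with `q² > B`. -/
lemma h12_exists_prime_sq_gt (B : ℕ) (hqp : ¬ q ∣ p) (hq1 : q % p ≠ 1) (hB : B < q ^ 2) :
    ∃ P ∈ primesOver (span {(q : ℤ)}) (𝓞 K), B < q ^ (P.inertiaDeg ℤ) ∨
      Submodule.IsPrincipal P := by
  refine h12_exists_prime_pow_gt p q K B 2 hqp (fun k hk0 hk2 => ?_) hB
  obtain rfl : k = 1 := by omega
  rw [pow_one]
  intro h
  apply hq1
  have h1 : ((q : ℕ) : ZMod p) = ((1 : ℕ) : ZMod p) := by simpa using h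
  rw [ZMod.natCast_eq_natCast_iff'] at h1
  rw [h1]
  exact Nat.mod_eq_of_lt hp.out.one_lt

/-- The prime above `p` in `ℚ(ζ_p)` is principal. -/
lemma h12_exists_prime_ramified (B : ℕ) :
    ∃ P ∈ primesOver (span {(p : ℤ)}) (𝓞 K), B < p ^ (P.inertiaDeg ℤ) ∨
      Submodule.IsPrincipal P := by
  have hpne : NeZero p := ⟨hp.out.ne_zero⟩
  have hζ := IsCyclotomicExtension.zeta_spec p ℚ K
  refine ⟨span {hζ.toInteger - 1}, ⟨isPrime_span_zeta_sub_one' p hζ, ?_⟩, Or.inr ⟨⟨_, rfl⟩⟩⟩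
  have : IsCyclotomicExtension {p ^ (0 + 1)} ℚ K := by simpa using ‹IsCyclotomicExtension {p} ℚ K›
  have hζ' : IsPrimitiveRoot (IsCyclotomicExtension.zeta p ℚ K) (p ^ (0 + 1)) := by
    rw [zero_add, pow_one]; exact hζ
  have := liesOver_span_zeta_sub_one p 0 hζ'
  exact this

variable {K}

/-- Every element of `𝓞 ℚ(ζ_p)` is a polynomial in `ζ`. -/
lemma h12_exists_aeval {ζ : K} (hζ : IsPrimitiveRoot ζ p) (x : 𝓞 K) :
    ∃ c : ℤ[X], x = aeval hζ.toInteger c := by
  have hp0 : NeZero p := ⟨hp.out.ne_zero⟩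
  have h := adjoin_singleton_eq_top hζ
  have hx : x ∈ Algebra.adjoin ℤ {hζ.toInteger} := by rw [h]; exact Algebra.mem_top
  rw [Algebra.adjoin_singleton_eq_range_aeval] at hx
  obtain ⟨c, hc⟩ := hx
  exact ⟨c, hc.symm⟩

/-- A polynomial over `ℤ` whose reduction mod `q` vanishes is divisible by `q`. -/
lemma h12_exists_eq_mul_of_map_eq_zero (c : ℤ[X])
    (h : c.map (Int.castRingHom (ZMod q)) = 0) : ∃ e : ℤ[X], c = C (q : ℤ) * e := by
  have : C (q : ℤ) ∣ c := by
    rw [Polynomial.C_dvd_iff_dvd_coeff]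
    intro i
    have hi := congrArg (fun f => f.coeff i) h
    simp only [coeff_map, coeff_zero, eq_intCast] at hi
    exact (ZMod.intCast_zmod_eq_zero_iff_dvd _ _).mp hi
  exact this

/-- **Certificate criterion**: `α` generates a prime ideal of `𝓞 ℚ(ζ_p)` over `q`. -/
theorem h12_principal_prime {ζ : K} (hζ : IsPrimitiveRoot ζ p)
    (gt : ℤ[X]) (hirr : Irreducible (gt.map (Int.castRingHom (ZMod q))))
    (hdvd : gt.map (Int.castRingHom (ZMod q)) ∣ cyclotomic p (ZMod q))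
    (α β β' γ δ : 𝓞 K) (h1 : α * β = (q : 𝓞 K)) (h2 : α * β' = aeval hζ.toInteger gt)
    (h3 : α = aeval hζ.toInteger gt * γ + (q : 𝓞 K) * δ) :
    span {α} ∈ primesOver (span {(q : ℤ)}) (𝓞 K) := by
  have hp0 : NeZero p := ⟨hp.out.ne_zero⟩
  set g := gt.map (Int.castRingHom (ZMod q)) with hg
  have : Fact (Irreducible g) := ⟨hirr⟩
  -- the ring homomorphism `𝓞 K → 𝔽_q[X]/(g)`
  have hmin : minpoly ℤ hζ.integralPowerBasis.gen = cyclotomic p ℤ := by
    rw [IsPrimitiveRoot.integralPowerBasis_gen, cyclotomic_eq_minpoly hζ hp.out.pos]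
    exact (RingOfIntegers.minpoly_coe hζ.toInteger).symm
  have hroot : aeval (AdjoinRoot.root g) (minpoly ℤ hζ.integralPowerBasis.gen) = 0 := by
    rw [hmin]
    have e1 : aeval (AdjoinRoot.root g) (cyclotomic p ℤ) =
        aeval (AdjoinRoot.root g) ((cyclotomic p ℤ).map (algebraMap ℤ (ZMod q))) := by
      rw [aeval_map_algebraMap]
    rw [e1, show algebraMap ℤ (ZMod q) = Int.castRingHom (ZMod q) from rfl, map_cyclotomic]
    obtain ⟨w, hw⟩ := hdvd
    rw [hw, map_mul, AdjoinRoot.aeval_eq, AdjoinRoot.mk_self, zero_mul]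
  set phi : 𝓞 K →ₐ[ℤ] AdjoinRoot g := hζ.integralPowerBasis.lift (AdjoinRoot.root g) hroot with hphi
  have hphiζ : phi hζ.toInteger = AdjoinRoot.root g := by
    have := hζ.integralPowerBasis.lift_gen (AdjoinRoot.root g) hroot
    rwa [IsPrimitiveRoot.integralPowerBasis_gen] at this
  have hphiaeval : ∀ c : ℤ[X], phi (aeval hζ.toInteger c) =
      AdjoinRoot.mk g (c.map (Int.castRingHom (ZMod q))) := by
    intro c
    rw [← aeval_algHom_apply, hphiζ, ← AdjoinRoot.aeval_eq,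
      ← show algebraMap ℤ (ZMod q) = Int.castRingHom (ZMod q) from rfl, aeval_map_algebraMap]
  have hphiq : phi (q : 𝓞 K) = 0 := by
    rw [map_natCast]
    have : (q : AdjoinRoot g) = (algebraMap (ZMod q) (AdjoinRoot g)) (q : ZMod q) := by
      rw [map_natCast]
    rw [this, ZMod.natCast_self, map_zero]
  have hphigt : phi (aeval hζ.toInteger gt) = 0 := by
    rw [hphiaeval, ← hg, AdjoinRoot.mk_self]
  have hphiα : phi α = 0 := by
    rw [h3, map_add, map_mul, map_mul, hphigt, hphiq, zero_mul, zero_mul, add_zero]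
  -- the kernel is `span {α}`
  have hker : RingHom.ker (phi : 𝓞 K →+* AdjoinRoot g) = span {α} := by
    apply le_antisymm
    · intro x hx
      rw [RingHom.mem_ker] at hx
      obtain ⟨c, rfl⟩ := h12_exists_aeval p hζ x
      have hx' : AdjoinRoot.mk g (c.map (Int.castRingHom (ZMod q))) = 0 := by
        rw [← hphiaeval]; exact hx
      rw [AdjoinRoot.mk_eq_zero] at hx'
      obtain ⟨dbar, hdbar⟩ := hx'
      obtain ⟨d, rfl⟩ := Polynomial.map_surjective (Int.castRingHom (ZMod q))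
        (ZMod.intCast_surjective) dbar
      have hzero : (c - gt * d).map (Int.castRingHom (ZMod q)) = 0 := by
        rw [Polynomial.map_sub, Polynomial.map_mul, hdbar, ← hg, sub_self]
      obtain ⟨e, he⟩ := h12_exists_eq_mul_of_map_eq_zero q _ hzero
      have hc : c = gt * d + C (q : ℤ) * e := by rw [← he]; ring
      rw [hc, map_add, map_mul, map_mul, ← h2, aeval_C, mem_span_singleton]
      refine ⟨β' * aeval hζ.toInteger d + β * aeval hζ.toInteger e, ?_⟩
      have hq' : (algebraMap ℤ (𝓞 K)) (q : ℤ) = α * β := by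
        rw [h1]; simp
      rw [hq']
      ring
    · rw [span_singleton_le_iff_mem, RingHom.mem_ker]
      exact hphiα
  have hprime : (span {α} : Ideal (𝓞 K)).IsPrime := by
    rw [← hker]
    exact RingHom.ker_isPrime _
  refine ⟨hprime, ?_⟩
  -- lies over `q`
  have hqmax : (span {(q : ℤ)} : Ideal ℤ).IsMaximal :=
    PrincipalIdealRing.isMaximal_of_irreducible
      (Nat.prime_iff_prime_int.mp hq.out).irreducible
  constructor
  refine hqmax.eq_of_le (Ideal.IsPrime.ne_top (hprime.under ℤ)) ?_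
  rw [span_singleton_le_iff_mem, Ideal.mem_comap, mem_span_singleton]
  refine ⟨β, ?_⟩
  rw [h1]
  simp

/-- The degree one case of the certificate criterion: `gt = X - r`. -/
theorem h12_principal_prime_deg_one {ζ : K} (hζ : IsPrimitiveRoot ζ p) (B : ℕ) (r : ℤ)
    (hr : ∑ i ∈ Finset.range p, (r : ZMod q) ^ i = 0)
    (α β β' γ δ : 𝓞 K) (h1 : α * β = (q : 𝓞 K)) (h2 : α * β' = hζ.toInteger - (r : 𝓞 K))
    (h3 : α = (hζ.toInteger - (r : 𝓞 K)) * γ + (q : 𝓞 K) * δ) :
    ∃ P ∈ primesOver (span {(q : ℤ)}) (𝓞 K), B < q ^ (P.inertiaDeg ℤ) ∨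
      Submodule.IsPrincipal P := by
  have hgt : aeval hζ.toInteger (X - C r : ℤ[X]) = hζ.toInteger - (r : 𝓞 K) := by
    simp
  have hmap : (X - C r : ℤ[X]).map (Int.castRingHom (ZMod q)) = X - C (r : ZMod q) := by
    simp
  refine ⟨span {α}, h12_principal_prime p q hζ (X - C r) ?_ ?_ α β β' γ δ h1 ?_ ?_,
    Or.inr ⟨⟨α, rfl⟩⟩⟩
  · rw [hmap]; exact irreducible_X_sub_C _
  · rw [hmap, dvd_iff_isRoot, IsRoot.def, cyclotomic_prime, eval_finsetSum]
    simp [hr]
  · rw [hgt]; exact h2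
  · rw [hgt]; exact h3

omit [NumberField K] [IsCyclotomicExtension {p} ℚ K] in
/-- The cyclotomic relation `1 + ζ + ⋯ + ζ^(p-1) = 0` in `𝓞 K`. -/
lemma h12_sum_zeta_pow {ζ : K} (hζ : IsPrimitiveRoot ζ p) :
    ∑ i ∈ Finset.range p, hζ.toInteger ^ i = 0 := by
  have hp0 : NeZero p := ⟨hp.out.ne_zero⟩
  have h := hζ.toInteger_isPrimitiveRoot
  exact h.geom_sum_eq_zero hp.out.one_lt

end cyclotomic

section criterion

variable (K : Type) [Field K] [NumberField K]

/-- The Minkowski criterion (Galois case) with an explicit upper bound `B`. -/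
theorem h12_pid_of_bound [IsGalois ℚ K] (B : ℕ)
    (hB : ⌊(4 / π) ^ nrComplexPlaces K *
      ((Module.finrank ℚ K)! / (Module.finrank ℚ K) ^ (Module.finrank ℚ K) * √|discr K|)⌋₊ ≤ B)
    (h : ∀ q ∈ Finset.Icc 1 B, q.Prime →
      ∃ P ∈ primesOver (span {(q : ℤ)}) (𝓞 K), B < q ^ P.inertiaDeg ℤ ∨
        Submodule.IsPrincipal P) :
    IsPrincipalIdealRing (𝓞 K) := by
  refine RingOfIntegers.isPrincipalIdealRing_of_isPrincipal_of_lt_or_isPrincipal_of_mem_primesOver_of_mem_Icc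
    (fun q hq hqp => ?_)
  obtain ⟨hq1, hq2⟩ := Finset.mem_Icc.mp hq
  obtain ⟨P, hP, hPB⟩ := h q (Finset.mem_Icc.mpr ⟨hq1, hq2.trans hB⟩) hqp
  refine ⟨P, hP, ?_⟩
  rcases hPB with h1 | h2
  · exact Or.inl (lt_of_le_of_lt hB h1)
  · exact Or.inr h2

end criterion

end Fermat.Agent.Kummer
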