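import Mathlib
import Fermat.Agent.Kummer.Defs
import Fermat.Agent.Kum.Defs

/-!
# Case I of Fermat's Last Theorem by Sophie Germain's theorem (helper16)

Let `p` be an odd prime and `q` an auxiliary prime such that
* (h1) `x ^ p + y ^ p + z ^ p = 0` in `ZMod q` implies `x * y * z = 0`;
* (h2) `p` is not a `p`-th power in `ZMod q`.
Then `a ^ p + b ^ p = c ^ p` has no integer solution with `p ∤ a * b * c`.

Everything is elementary (`ℤ` and `ZMod q` only).  Instances: `p = 5` (`q = 11`), `p = 7` (`q = 29`),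
`p = 11` (`q = 23`), `p = 13` (`q = 53`).
-/

namespace Fermat.Agent.SG

open Finset

/-- The cofactor `(y ^ p + z ^ p) / (y + z)` for odd `p`. -/
def h16phi (p : ℕ) (y z : ℤ) : ℤ := ∑ i ∈ range p, y ^ i * (-z) ^ (p - 1 - i)

theorem h16phi_mul {p : ℕ} (hp : Odd p) (y z : ℤ) :
    h16phi p y z * (y + z) = y ^ p + z ^ p := by
  have h := geom_sum₂_mul y (-z) p
  rw [hp.neg_pow] at h
  unfold h16phi
  linear_combination h

theorem h16_coprime {p : ℕ} (hp : p.Prime) {y z : ℤ} (hyz : IsCoprime y z)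
    (hpn : ¬ (p : ℤ) ∣ y + z) : IsCoprime (y + z) (h16phi p y z) := by
  rw [Int.isCoprime_iff_gcd_eq_one]
  by_contra hne
  obtain ⟨r, hr, hrd⟩ := Nat.exists_prime_and_dvd hne
  have hr' : Prime (r : ℤ) := Nat.prime_iff_prime_int.mp hr
  have h1 : (r : ℤ) ∣ y + z := Int.natCast_dvd.mpr (hrd.trans (Int.gcd_dvd_natAbs_left _ _))
  have h2 : (r : ℤ) ∣ h16phi p y z :=
    Int.natCast_dvd.mpr (hrd.trans (Int.gcd_dvd_natAbs_right _ _))
  have h3 : (r : ℤ) ∣ y - (-z) := by simpa using h1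
  have h4 : (r : ℤ) ∣ (p : ℤ) * (-z) ^ (p - 1) := (dvd_geom_sum₂_iff_of_dvd_sub (n := p) h3).mp h2
  rcases hr'.dvd_or_dvd h4 with h5 | h5
  · have : r = p := (Nat.prime_dvd_prime_iff_eq hr hp).mp (Int.natCast_dvd_natCast.mp h5)
    subst this
    exact hpn h1
  · have hz : (r : ℤ) ∣ z := by
      have := hr'.dvd_of_dvd_pow h5
      simpa using this
    have hy : (r : ℤ) ∣ y := by
      have := dvd_sub h1 hz
      simpa using this
    exact hr'.not_isUnit (hyz.isUnit_of_dvd' hy hz)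

/-- From `x ^ p + y ^ p + z ^ p = 0`, `gcd(y, z) = 1`, `p ∤ x`: both `y + z` and the cofactor are
`p`-th powers. -/
theorem h16_exists_pow {p : ℕ} (hp : p.Prime) (hodd : Odd p) {x y z : ℤ}
    (h : x ^ p + y ^ p + z ^ p = 0) (hyz : IsCoprime y z) (hpx : ¬ (p : ℤ) ∣ x) :
    (∃ a : ℤ, y + z = a ^ p) ∧ ∃ α : ℤ, h16phi p y z = α ^ p := by
  have hp' : Prime (p : ℤ) := Nat.prime_iff_prime_int.mp hp
  have hmul : (y + z) * h16phi p y z = (-x) ^ p := by
    rw [mul_comm, h16phi_mul hodd, hodd.neg_pow]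
    linear_combination h
  have hpn : ¬ (p : ℤ) ∣ y + z := by
    intro hd
    have : (p : ℤ) ∣ (-x) ^ p := by
      rw [← hmul]
      exact dvd_mul_of_dvd_left hd _
    have := hp'.dvd_of_dvd_pow this
    exact hpx (by simpa using this)
  exact Int.eq_pow_of_mul_eq_pow_odd (h16_coprime hp hyz hpn) hodd hmul

theorem h16_cast_phi_of_add_eq_zero {q : ℕ} (p : ℕ) {y z : ℤ} (h : ((y + z : ℤ) : ZMod q) = 0) :
    ((h16phi p y z : ℤ) : ZMod q) = (p : ZMod q) * (y : ZMod q) ^ (p - 1) := by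
  have hz : ((-z : ℤ) : ZMod q) = (y : ZMod q) := by
    push_cast at h ⊢
    linear_combination -h
  unfold h16phi
  push_cast
  have hz' : (-(z : ZMod q)) = (y : ZMod q) := by
    push_cast at hz
    exact hz
  rw [hz']
  exact geom_sum₂_self _ _

theorem h16_cast_phi_of_left_eq_zero {q : ℕ} {p : ℕ} (hp : Odd p) {x y : ℤ}
    (h : ((x : ℤ) : ZMod q) = 0) :
    ((h16phi p x y : ℤ) : ZMod q) = (y : ZMod q) ^ (p - 1) := by
  obtain ⟨k, hk⟩ := hp
  unfold h16phi
  push_cast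
  rw [h, hk, Finset.sum_range_succ']
  have : ∀ i ∈ range (2 * k), (0 : ZMod q) ^ (i + 1) * (-(y : ZMod q)) ^ (2 * k + 1 - 1 - (i + 1)) = 0 := by
    intro i _
    rw [pow_succ]
    ring
  rw [Finset.sum_eq_zero this]
  simp only [zero_add, pow_zero, one_mul, Nat.add_sub_cancel, Nat.sub_zero]
  rw [Even.neg_pow (even_two_mul k)]

/-- Core of Sophie Germain's argument, with `q ∣ x`. -/
theorem h16_main_aux {p q : ℕ} (hp : p.Prime) (hodd : Odd p) [Fact q.Prime]
    (h1 : ∀ x y z : ZMod q, x ^ p + y ^ p + z ^ p = 0 → x * y * z = 0)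
    (h2 : ∀ t : ZMod q, t ^ p ≠ (p : ZMod q))
    {x y z : ℤ} (h : x ^ p + y ^ p + z ^ p = 0)
    (hxy : IsCoprime x y) (hyz : IsCoprime y z) (hzx : IsCoprime z x)
    (hpx : ¬ (p : ℤ) ∣ x) (hpy : ¬ (p : ℤ) ∣ y) (hpz : ¬ (p : ℤ) ∣ z)
    (hqx : (q : ℤ) ∣ x) : False := by
  have hq : q.Prime := Fact.out
  have hq' : Prime (q : ℤ) := Nat.prime_iff_prime_int.mp hq
  obtain ⟨⟨a, ha⟩, ⟨α, hα⟩⟩ := h16_exists_pow hp hodd h hyz hpx
  obtain ⟨⟨b, hb⟩, -⟩ := h16_exists_pow hp hodd (x := y) (y := z) (z := x)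
    (by linear_combination h) hzx hpy
  obtain ⟨⟨c, hc⟩, ⟨γ, hγ⟩⟩ := h16_exists_pow hp hodd (x := z) (y := x) (z := y)
    (by linear_combination h) hxy hpz
  have hx0 : ((x : ℤ) : ZMod q) = 0 := (ZMod.intCast_zmod_eq_zero_iff_dvd x q).mpr hqx
  have hy0 : ((y : ℤ) : ZMod q) ≠ 0 := by
    intro hy
    have hqy : (q : ℤ) ∣ y := (ZMod.intCast_zmod_eq_zero_iff_dvd y q).mp hy
    exact hq'.not_isUnit (hxy.isUnit_of_dvd' hqx hqy)
  have hz0 : ((z : ℤ) : ZMod q) ≠ 0 := by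
    intro hz
    have hqz : (q : ℤ) ∣ z := (ZMod.intCast_zmod_eq_zero_iff_dvd z q).mp hz
    exact hq'.not_isUnit (hzx.isUnit_of_dvd' hqz hqx)
  -- the key congruence
  have hsum : (c : ZMod q) ^ p + (b : ZMod q) ^ p + (-(a : ZMod q)) ^ p = 0 := by
    have e1 : ((x + y : ℤ) : ZMod q) = (c : ZMod q) ^ p := by rw [hc]; push_cast; rfl
    have e2 : ((z + x : ℤ) : ZMod q) = (b : ZMod q) ^ p := by rw [hb]; push_cast; rfl
    have e3 : ((y + z : ℤ) : ZMod q) = (a : ZMod q) ^ p := by rw [ha]; push_cast; rfl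
    rw [hodd.neg_pow, ← e1, ← e2, ← e3]
    push_cast
    rw [hx0]
    ring
  have hprod := h1 _ _ _ hsum
  have ha0 : (a : ZMod q) = 0 := by
    rcases mul_eq_zero.mp hprod with h' | h'
    · rcases mul_eq_zero.mp h' with hc0 | hb0
      · exfalso
        have : ((x + y : ℤ) : ZMod q) = 0 := by rw [hc]; push_cast; rw [hc0, zero_pow hp.ne_zero]
        push_cast at this
        rw [hx0, zero_add] at this
        exact hy0 this
      · exfalso
        have : ((z + x : ℤ) : ZMod q) = 0 := by rw [hb]; push_cast; rw [hb0, zero_pow hp.ne_zero]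
        push_cast at this
        rw [hx0, add_zero] at this
        exact hz0 this
    · simpa using h'
  have hyz0 : ((y + z : ℤ) : ZMod q) = 0 := by
    rw [ha]; push_cast; rw [ha0, zero_pow hp.ne_zero]
  have hα' : (α : ZMod q) ^ p = (p : ZMod q) * (y : ZMod q) ^ (p - 1) := by
    have := h16_cast_phi_of_add_eq_zero (q := q) p hyz0
    rw [hα] at this
    push_cast at this
    exact this
  have hγ' : (γ : ZMod q) ^ p = (y : ZMod q) ^ (p - 1) := by
    have := h16_cast_phi_of_left_eq_zero (q := q) hodd (x := x) (y := y) hx0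
    rw [hγ] at this
    push_cast at this
    exact this
  have hγ0 : (γ : ZMod q) ≠ 0 := by
    intro h0
    rw [h0, zero_pow hp.ne_zero] at hγ'
    exact pow_ne_zero _ hy0 hγ'.symm
  apply h2 ((α : ZMod q) / (γ : ZMod q))
  rw [div_pow, hα', hγ']
  have hne : (y : ZMod q) ^ (p - 1) ≠ 0 := pow_ne_zero _ hy0
  field_simp

/-- Sophie Germain, symmetric form. -/
theorem h16_sym {p q : ℕ} (hp : p.Prime) (hodd : Odd p) [Fact q.Prime]
    (h1 : ∀ x y z : ZMod q, x ^ p + y ^ p + z ^ p = 0 → x * y * z = 0)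
    (h2 : ∀ t : ZMod q, t ^ p ≠ (p : ZMod q))
    {x y z : ℤ} (h : x ^ p + y ^ p + z ^ p = 0)
    (hxy : IsCoprime x y) (hyz : IsCoprime y z) (hzx : IsCoprime z x)
    (hpx : ¬ (p : ℤ) ∣ x) (hpy : ¬ (p : ℤ) ∣ y) (hpz : ¬ (p : ℤ) ∣ z) : False := by
  have hcast : (x : ZMod q) ^ p + (y : ZMod q) ^ p + (z : ZMod q) ^ p = 0 := by
    have := congrArg (Int.cast : ℤ → ZMod q) h
    push_cast at this
    exact this
  have hprod := h1 _ _ _ hcast
  rcases mul_eq_zero.mp hprod with h' | hz0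
  · rcases mul_eq_zero.mp h' with hx0 | hy0
    · exact h16_main_aux hp hodd h1 h2 h hxy hyz hzx hpx hpy hpz
        ((ZMod.intCast_zmod_eq_zero_iff_dvd x q).mp hx0)
    · exact h16_main_aux hp hodd h1 h2 (x := y) (y := z) (z := x) (by linear_combination h)
        hyz hzx hxy hpy hpz hpx ((ZMod.intCast_zmod_eq_zero_iff_dvd y q).mp hy0)
  · exact h16_main_aux hp hodd h1 h2 (x := z) (y := x) (z := y) (by linear_combination h)
      hzx hxy hyz hpz hpx hpy ((ZMod.intCast_zmod_eq_zero_iff_dvd z q).mp hz0)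

/-- **Sophie Germain's theorem**: case I of Fermat's Last Theorem for the odd prime `p`, given an
auxiliary prime `q` with (h1) and (h2). -/
theorem h16_sophieGermain {p q : ℕ} (hp : p.Prime) (hodd : Odd p) [Fact q.Prime]
    (h1 : ∀ x y z : ZMod q, x ^ p + y ^ p + z ^ p = 0 → x * y * z = 0)
    (h2 : ∀ t : ZMod q, t ^ p ≠ (p : ZMod q)) :
    Fermat.Agent.H4Kum.CaseI p := by
  intro a b c hdvd heq
  have hp0 : p ≠ 0 := hp.ne_zero
  have ha0 : a ≠ 0 := by rintro rfl; exact hdvd (by simp)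
  have hgpos : 0 < Int.gcd a b := Int.gcd_pos_of_ne_zero_left b ha0
  obtain ⟨a', b', hg1, ha', hb'⟩ := Int.exists_gcd_one hgpos
  set d : ℤ := (Int.gcd a b : ℤ) with hd
  have hd0 : d ≠ 0 := by positivity
  have hdc : d ∣ c := by
    have : d ^ p ∣ c ^ p := by
      rw [← heq, ha', hb', mul_pow, mul_pow]
      exact dvd_add (dvd_mul_left _ _) (dvd_mul_left _ _)
    exact (Int.pow_dvd_pow_iff hp0).mp this
  obtain ⟨c', hc'⟩ := hdc
  have heq' : a' ^ p + b' ^ p = c' ^ p := by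
    have h3 : d ^ p * (a' ^ p + b' ^ p) = d ^ p * c' ^ p := by
      have := heq
      rw [ha', hb', hc', mul_pow, mul_pow, mul_pow] at this
      linear_combination this
    exact mul_left_cancel₀ (pow_ne_zero _ hd0) h3
  have hab : IsCoprime a' b' := Int.isCoprime_iff_gcd_eq_one.mpr hg1
  have hdvd' : ¬ (p : ℤ) ∣ a' * b' * c' := by
    intro hh
    apply hdvd
    rw [ha', hb', hc']
    have : a' * d * (b' * d) * (d * c') = (a' * b' * c') * d ^ 3 := by ring
    rw [this]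
    exact dvd_mul_of_dvd_left hh _
  have hpa : ¬ (p : ℤ) ∣ a' := fun hh => hdvd' (dvd_mul_of_dvd_left (dvd_mul_of_dvd_left hh _) _)
  have hpb : ¬ (p : ℤ) ∣ b' := fun hh => hdvd' (dvd_mul_of_dvd_left (dvd_mul_of_dvd_right hh _) _)
  have hpc : ¬ (p : ℤ) ∣ c' := fun hh => hdvd' (dvd_mul_of_dvd_right hh _)
  have hca : IsCoprime c' a' := Fermat.Agent.H4Kum.isCoprime_of_add_pow_eq_left hp0 heq' hab
  have hcb : IsCoprime c' b' := Fermat.Agent.H4Kum.isCoprime_of_add_pow_eq_right hp0 heq' hab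
  refine h16_sym hp hodd h1 h2 (x := a') (y := b') (z := -c') ?_ hab hcb.symm.neg_right
    hca.neg_left hpa hpb ?_
  · rw [hodd.neg_pow]
    linear_combination heq'
  · simpa using hpc

end Fermat.Agent.SG

namespace Fermat.Agent.SG

/-- (h1) from a finite set `S` containing all `p`-th powers of `ZMod q`. -/
theorem h16_h1_of {q p : ℕ} [Fact q.Prime] (hp0 : p ≠ 0) (S : Finset (ZMod q))
    (hS : ∀ x : ZMod q, x ^ p ∈ S)
    (hsum : ∀ u ∈ S, ∀ v ∈ S, ∀ w ∈ S, u + v + w = 0 → u = 0 ∨ v = 0 ∨ w = 0) :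
    ∀ x y z : ZMod q, x ^ p + y ^ p + z ^ p = 0 → x * y * z = 0 := by
  intro x y z h
  rcases hsum _ (hS x) _ (hS y) _ (hS z) h with h0 | h0 | h0
  · rw [(pow_eq_zero_iff hp0).mp h0]; simp
  · rw [(pow_eq_zero_iff hp0).mp h0]; simp
  · rw [(pow_eq_zero_iff hp0).mp h0]; simp

/-- (h2) from a finite set `S` containing all `p`-th powers of `ZMod q`. -/
theorem h16_h2_of {q p : ℕ} (S : Finset (ZMod q)) (hS : ∀ x : ZMod q, x ^ p ∈ S)
    (hp : (p : ZMod q) ∉ S) : ∀ t : ZMod q, t ^ p ≠ (p : ZMod q) :=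
  fun t ht => hp (ht ▸ hS t)

theorem h16_fact_prime_11 : Fact (Nat.Prime 11) := ⟨by norm_num⟩
theorem h16_fact_prime_23 : Fact (Nat.Prime 23) := ⟨by norm_num⟩
theorem h16_fact_prime_29 : Fact (Nat.Prime 29) := ⟨by norm_num⟩
theorem h16_fact_prime_53 : Fact (Nat.Prime 53) := ⟨by norm_num⟩

set_option maxRecDepth 100000 in
theorem h16_pows_5 : ∀ x : ZMod 11, x ^ 5 ∈ ({0, 1, -1} : Finset (ZMod 11)) := by decide

set_option maxRecDepth 100000 in
theorem h16_pows_11 : ∀ x : ZMod 23, x ^ 11 ∈ ({0, 1, -1} : Finset (ZMod 23)) := by decide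

set_option maxRecDepth 100000 in
theorem h16_pows_7 : ∀ x : ZMod 29, x ^ 7 ∈ ({0, 1, -1, 12, -12} : Finset (ZMod 29)) := by decide

set_option maxRecDepth 100000 in
theorem h16_pows_13 : ∀ x : ZMod 53, x ^ 13 ∈ ({0, 1, -1, 23, -23} : Finset (ZMod 53)) := by
  decide

set_option maxRecDepth 100000 in
/-- Case I of Fermat's Last Theorem for `p = 5` (auxiliary prime `11`). -/
theorem h16_caseI_five : Fermat.Agent.H4Kum.CaseI 5 :=
  @h16_sophieGermain 5 11 (by norm_num) (by decide) h16_fact_prime_11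
    (@h16_h1_of 11 5 h16_fact_prime_11 (by norm_num) _ h16_pows_5 (by decide))
    (h16_h2_of _ h16_pows_5 (by decide))

set_option maxRecDepth 100000 in
/-- Case I of Fermat's Last Theorem for `p = 7` (auxiliary prime `29`). -/
theorem h16_caseI_seven : Fermat.Agent.H4Kum.CaseI 7 :=
  @h16_sophieGermain 7 29 (by norm_num) (by decide) h16_fact_prime_29
    (@h16_h1_of 29 7 h16_fact_prime_29 (by norm_num) _ h16_pows_7 (by decide))
    (h16_h2_of _ h16_pows_7 (by decide))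

set_option maxRecDepth 100000 in
/-- Case I of Fermat's Last Theorem for `p = 11` (auxiliary prime `23`). -/
theorem h16_caseI_eleven : Fermat.Agent.H4Kum.CaseI 11 :=
  @h16_sophieGermain 11 23 (by norm_num) (by decide) h16_fact_prime_23
    (@h16_h1_of 23 11 h16_fact_prime_23 (by norm_num) _ h16_pows_11 (by decide))
    (h16_h2_of _ h16_pows_11 (by decide))

set_option maxRecDepth 100000 in
/-- Case I of Fermat's Last Theorem for `p = 13` (auxiliary prime `53`). -/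
theorem h16_caseI_thirteen : Fermat.Agent.H4Kum.CaseI 13 :=
  @h16_sophieGermain 13 53 (by norm_num) (by decide) h16_fact_prime_53
    (@h16_h1_of 53 13 h16_fact_prime_53 (by norm_num) _ h16_pows_13 (by decide))
    (h16_h2_of _ h16_pows_13 (by decide))

/-- `H4Kum.CaseI p` implies the lead's `Kummer.CaseIHolds p`. -/
theorem h16_caseIHolds_of_caseI {p : ℕ} (h : Fermat.Agent.H4Kum.CaseI p) :
    Fermat.Agent.Kummer.CaseIHolds p :=
  fun a b c _ hdvd => h a b c hdvd

theorem h16_caseIHolds_five : Fermat.Agent.Kummer.CaseIHolds 5 :=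
  h16_caseIHolds_of_caseI h16_caseI_five

theorem h16_caseIHolds_seven : Fermat.Agent.Kummer.CaseIHolds 7 :=
  h16_caseIHolds_of_caseI h16_caseI_seven

theorem h16_caseIHolds_eleven : Fermat.Agent.Kummer.CaseIHolds 11 :=
  h16_caseIHolds_of_caseI h16_caseI_eleven

theorem h16_caseIHolds_thirteen : Fermat.Agent.Kummer.CaseIHolds 13 :=
  h16_caseIHolds_of_caseI h16_caseI_thirteen

end Fermat.Agent.SG
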